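import Fermat.Agent.S56.Flat.Defs

/-!
# S56 / FLAT : definitions for the IRREDUCIBLE case (owner helper16).   Briefing `S56-FLAT-2`.

`v = vp p`, `I = Ip p`, `D = Dp p`, `K0 = Fx I`, `e = p ^ 2 - 1`, `π ^ e = - p`, `F = K0(π) = Fx (IF p π)`.
* `IF p π = stab (Ip p) π` : the inertia group of the tame field `F`.
* `OJ p J x` : `x` is an integer of the field `Fx J`.
* `Kum p π ζ x χ` : `χ` is (on `IF`) the Kummer character of `1 + p x`.
* `TypeU p π ζ χ` : `χ` is the Kummer character of some `1 + p x`, `x ∈ O_F`.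
* `IsFrobAll p φ` : `φ ∈ D` is a Frobenius (the hypothesis of `S55.B.ur_gen`).
-/

set_option autoImplicit false

noncomputable section

namespace Fermat.Agent.S56.Flat

open Fermat.Agent.S55 Fermat.Agent.S55.B Fermat.Agent.S05 ExtCitation

variable (p : ℕ) [Fact p.Prime]

/-- the inertia group of `F = K0(π)` -/
abbrev IF (π : Qb) : Subgroup GQ := stab (Ip p) π

/-- `x` is an integer of `Fx J` -/
def OJ (J : Subgroup GQ) (x : Qb) : Prop := x ∈ Fx J ∧ (vp p).GE x 0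

/-- `χ` is, on `IF p π`, the Kummer character of `1 + p x` -/
def Kum (π ζ x : Qb) (χ : GQ → ZMod p) : Prop :=
  ∃ y : Qb, y ^ p = 1 + (p : Qb) * x ∧ ∀ σ ∈ IF p π, σ y = ζ ^ (χ σ).val * y

/-- Kummer characters of the units `1 + p x`, `x ∈ O_F` -/
def TypeU (π ζ : Qb) (χ : GQ → ZMod p) : Prop := ∃ x : Qb, OJ p (IF p π) x ∧ Kum p π ζ x χ

/-- a Frobenius element of `D` -/
def IsFrobAll (φ : GQ) : Prop :=
  φ ∈ Dp p ∧ ∀ (M : ℕ) (η : Qb), ¬ p ∣ M → η ^ M = 1 → φ η = η ^ p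

end Fermat.Agent.S56.Flat
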